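/-
JT3 / T0b (helper24): RELATIVE place calculus, characteristic-free, part 1: the fundamental identity.

`K` algebraically closed (any characteristic), `F ⊆ F'` function fields over `K`, `F'/F` finite
separable.  For a place `v` of `F` with valuation ring `R = O_v` (a DVR) let `S` be the integral
closure of `R` in `F'` (a semilocal Dedekind domain, finite over `R`).  The places `w` of `F'`
with `w.restrict F = v` are exactly the places of the maximal ideals of `S`, and
`∑_{w | v} e(w|v) = [F' : F]`, i.e. the prelude class `SumRamificationInertia K F F'` holds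
(hence `FundamentalIdentity K F F'`).  Prefix `ptw_`.
-/
import Mathlib
import Fermat.Agent.S24.Hurwitz.FunctionField
import Fermat.Prelude.Def_AlgebraicCurve_Correspondence

set_option autoImplicit false
set_option linter.style.haveILetI false
set_option linter.unusedSectionVars false

namespace Fermat.Agent.JT3

open AlgebraicCurve IntermediateField Polynomial WithZero IsDedekindDomain
open Fermat.Agent.S24

universe u v w

section Abstract

variable {K : Type u} {F : Type v} [Field K] [Field F] [Algebra K F]
variable [IsAlgClosed K]
variable (B : Type*) [CommRing B] [IsDedekindDomain B] [Algebra K B] [Algebra B F]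
  [IsScalarTower K B F] [IsFractionRing B F]
variable (R : Type*) [CommRing R] [IsDomain R] [Algebra K R] [Algebra R B] [IsScalarTower K R B]
  [Module.Finite R B] [Module.Flat R B] [FaithfulSMul R B]

/-- Variant of `hw_sum_ord_eq_finrank` without the hypothesis that every zero of `t` contains `B`:
the places of `F` whose valuation ring contains `B` and at which `t` vanishes form a finite set and
their orders at `t` sum up to the rank of `B` over `R`. -/
theorem ptw_sum_ord_eq_finrank (t : R) (ht : t ≠ 0) [hmax : (Ideal.span {t}).IsMaximal]
    (hK : Function.Surjective (algebraMap K (R ⧸ Ideal.span {t}))) :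
    ∃ s : Finset (Place K F),
      (∀ v, v ∈ s ↔ (∀ b : B, algebraMap B F b ∈ v.toValuationSubring) ∧
        0 < v.ord (algebraMap B F (algebraMap R B t))) ∧
      ∑ v ∈ s, v.ord (algebraMap B F (algebraMap R B t)) = (Module.finrank R B : ℤ) := by
  classical
  set p : Ideal R := Ideal.span {t} with hp
  have hp0 : p ≠ ⊥ := by
    rw [hp, Ne, Ideal.span_singleton_eq_bot]; exact ht
  have : Fintype (p.primesOver B) := (Algebra.QuasiFinite.finite_primesOver p).fintype
  let hq : p.primesOver B → HeightOneSpectrum B := fun q =>
    ⟨q.1, q.2.1, Ideal.ne_bot_of_mem_primesOver hp0 q.2⟩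
  let g : p.primesOver B → Place K F := fun q => hw_placeOfPrime B (hq q)
  have hginj : Function.Injective g := by
    intro q q' h
    have h1 : hq q = hq q' := by
      rw [← hw_primeOfPlace_placeOfPrime (K := K) (F := F) (hq q),
        ← hw_primeOfPlace_placeOfPrime (K := K) (F := F) (hq q')]
      congr 1
    exact Subtype.ext (congrArg HeightOneSpectrum.asIdeal h1)
  have hord : ∀ q : p.primesOver B,
      (g q).ord (algebraMap B F (algebraMap R B t)) = (q.1.ramificationIdx R : ℤ) := by
    intro q
    have : (hq q).asIdeal.LiesOver (Ideal.span {t}) := q.2.2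
    rw [hw_placeOfPrime_ord, ← hw_ramificationIdx_eq B R t ht (hq q)]
  refine ⟨Finset.univ.map ⟨g, hginj⟩, ?_, ?_⟩
  · intro v
    simp only [Finset.mem_map, Finset.mem_univ, true_and, Function.Embedding.coeFn_mk]
    constructor
    · rintro ⟨q, rfl⟩
      refine ⟨fun b => hw_placeOfPrime_algebraMap_mem B (hq q) b, ?_⟩
      rw [hord]
      have := q.2.1
      exact_mod_cast Ideal.ramificationIdx_pos q.1 R
    · rintro ⟨hB, hv⟩
      set Q := hw_primeOfPlace v hB with hQ
      have htQ : algebraMap R B t ∈ Q.asIdeal := by
        rw [hw_mem_primeOfPlace_iff]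
        intro hu
        have h1 := (v.adicValuation_coe_eq_one_iff _).mpr hu
        rw [hw_inclB_coe] at h1
        rw [hw_ord_eq_neg_log, h1] at hv
        simp at hv
      have hlies : Q.asIdeal.LiesOver p := by
        constructor
        have hle : p ≤ Q.asIdeal.under R := by
          rw [hp, Ideal.span_le, Set.singleton_subset_iff]
          exact htQ
        have hne : Q.asIdeal.under R ≠ ⊤ := by
          intro h
          have : (1 : R) ∈ Q.asIdeal.under R := by rw [h]; trivial
          rw [Ideal.under_def, Ideal.mem_comap, map_one] at this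
          exact Q.isPrime.ne_top ((Ideal.eq_top_iff_one _).mpr this)
        exact hmax.eq_of_le hne hle
      refine ⟨⟨Q.asIdeal, Q.isPrime, hlies⟩, ?_⟩
      exact hw_placeOfPrime_primeOfPlace v hB
  · rw [Finset.sum_map]
    simp only [Function.Embedding.coeFn_mk]
    rw [← Ideal.sum_ramification_inertia_eq_finrank p B]
    push_cast
    refine Finset.sum_congr rfl fun q _ => ?_
    have := q.2.1
    have := q.2.2
    rw [hord, hw_inertiaDeg_eq_one B R p hK q.1]
    simp

end Abstract

section Local1

variable {K : Type u} {F : Type v} {F' : Type w} [Field K] [Field F] [Field F']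
  [Algebra K F] [Algebra K F'] [Algebra F F'] [IsScalarTower K F F']
variable (v : Place K F)
variable [Algebra v.toValuationSubring F'] [IsScalarTower v.toValuationSubring F F']
variable (S : Type*) [CommRing S] [Algebra v.toValuationSubring S] [Algebra S F']
  [IsScalarTower v.toValuationSubring S F']

theorem ptw_algebraMap_R (r : v.toValuationSubring) :
    algebraMap S F' (algebraMap v.toValuationSubring S r) = algebraMap F F' (r : F) := by
  rw [← IsScalarTower.algebraMap_apply, IsScalarTower.algebraMap_apply v.toValuationSubring F F']
  rfl

variable [Algebra.IsIntegral F F']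

/-- A place `w` of `F'` restricts to `v` iff its valuation ring contains `S` (`S` integral over
`O_v`). -/
theorem ptw_restrict_eq_iff [Algebra.IsIntegral v.toValuationSubring S] (w : Place K F') :
    w.restrict F = v ↔ ∀ s : S, algebraMap S F' s ∈ w.toValuationSubring := by
  constructor
  · intro hw s
    have hR : ∀ r : v.toValuationSubring,
        algebraMap v.toValuationSubring F' r ∈ w.toValuationSubring := by
      intro r
      rw [IsScalarTower.algebraMap_apply v.toValuationSubring F F']
      have : (r : F) ∈ (w.restrict F).toValuationSubring := by rw [hw]; exact r.2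
      exact this
    let ι : v.toValuationSubring →+* w.toValuationSubring :=
      (algebraMap v.toValuationSubring F').codRestrict w.toValuationSubring.toSubring hR
    obtain ⟨p, hpm, hp0⟩ := Algebra.IsIntegral.isIntegral (R := v.toValuationSubring) s
    have hintO : IsIntegral w.toValuationSubring (algebraMap S F' s) := by
      refine ⟨p.map ι, hpm.map ι, ?_⟩
      rw [eval₂_map]
      have : (algebraMap w.toValuationSubring F').comp ι =
          algebraMap v.toValuationSubring F' := by
        ext y; rfl
      rw [this, IsScalarTower.algebraMap_eq v.toValuationSubring S F', ← hom_eval₂, hp0,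
        map_zero]
    obtain ⟨y, hy⟩ := IsIntegrallyClosed.isIntegral_iff.mp hintO
    rw [← hy]
    exact y.2
  · intro hS
    apply Place.ext
    symm
    refine ValuationSubring.eq_of_le_of_ne_top _ ?_ (w.restrict F).ne_top'
    intro f hf
    rw [Place.restrict_toValuationSubring, ValuationSubring.mem_comap]
    have := hS (algebraMap v.toValuationSubring S ⟨f, hf⟩)
    rwa [ptw_algebraMap_R] at this

end Local1


section Local2

variable {K : Type u} {F : Type v} {F' : Type w} [Field K] [Field F] [Field F']
  [Algebra K F] [Algebra K F'] [Algebra F F'] [IsScalarTower K F F']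
variable [IsAlgClosed K]
variable (v : Place K F)
variable [Algebra v.toValuationSubring F'] [IsScalarTower v.toValuationSubring F F']
variable (S : Type*) [CommRing S] [IsDedekindDomain S] [Algebra K S]
  [Algebra v.toValuationSubring S] [Algebra S F']
  [IsScalarTower v.toValuationSubring S F'] [IsScalarTower K S F'] [IsFractionRing S F']
  [IsScalarTower K v.toValuationSubring S]
  [Module.Finite v.toValuationSubring S] [FaithfulSMul v.toValuationSubring S]
variable [Algebra.IsIntegral F F'] [HasPrincipalDivisors K F']

/-- The residue field of `O_v` modulo a uniformizer is `K`. -/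
theorem ptw_residue_surjective (x : F) [Algebra.IsAlgebraic K⟮x⟯ F]
    {ϖ : v.toValuationSubring} (hϖ : Irreducible ϖ) :
    Function.Surjective (algebraMap K (v.toValuationSubring ⧸ Ideal.span {ϖ})) := by
  intro y
  obtain ⟨r, rfl⟩ := Ideal.Quotient.mk_surjective y
  obtain ⟨c, hc⟩ := hw_exists_const x v r.2
  refine ⟨c, ?_⟩
  rw [IsScalarTower.algebraMap_apply K v.toValuationSubring, Ideal.Quotient.algebraMap_eq,
    Ideal.Quotient.mk_eq_mk_iff_sub_mem]
  rcases hc with hc | hc
  · have : algebraMap K v.toValuationSubring c - r = 0 := by
      apply Subtype.ext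
      simp [hc]
    rw [this]; exact zero_mem _
  · rw [← hϖ.maximalIdeal_eq, IsLocalRing.mem_maximalIdeal, mem_nonunits_iff]
    intro hu
    have h1 := (v.adicValuation_coe_eq_one_iff _).mpr hu
    have h2 : ((algebraMap K v.toValuationSubring c - r : v.toValuationSubring) : F) =
        -((r : F) - algebraMap K F c) := by
      simp
    rw [h2, Valuation.map_neg] at h1
    rw [hw_ord_eq_neg_log, h1] at hc
    simp at hc

/-- **Fundamental identity, local form**: `∑_{w | v} e(w|v) = rank_{O_v} S`. -/
theorem ptw_sum_ramificationIndex_eq_finrank (x : F) [Algebra.IsAlgebraic K⟮x⟯ F] :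
    ∑ w ∈ v.fiber F', (w.ramificationIndex F : ℤ) =
      (Module.finrank v.toValuationSubring S : ℤ) := by
  classical
  obtain ⟨ϖ, hϖ⟩ := IsDiscreteValuationRing.exists_irreducible v.toValuationSubring
  have hmax : (Ideal.span {ϖ}).IsMaximal := PrincipalIdealRing.isMaximal_of_irreducible hϖ
  have hK := ptw_residue_surjective v x hϖ
  have hint : Algebra.IsIntegral v.toValuationSubring S := inferInstance
  have hflat : Module.Flat v.toValuationSubring S := inferInstance
  obtain ⟨s, hs1, hs2⟩ := ptw_sum_ord_eq_finrank (K := K) (F := F') S v.toValuationSubring ϖ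
    hϖ.ne_zero hK
  have hϖ' : algebraMap S F' (algebraMap v.toValuationSubring S ϖ) = algebraMap F F' (ϖ : F) :=
    ptw_algebraMap_R v S ϖ
  have hord : ∀ w : Place K F', w.restrict F = v →
      w.ord (algebraMap F F' (ϖ : F)) = (w.ramificationIndex F : ℤ) := by
    intro w hw
    rw [w.ord_restrict, hw, v.ord_coe_irreducible hϖ, mul_one]
  have hseq : s = v.fiber F' := by
    ext w
    rw [hs1, Place.mem_fiber, ptw_restrict_eq_iff v S w]
    constructor
    · exact fun h => h.1
    · intro h
      refine ⟨h, ?_⟩
      have hw := (ptw_restrict_eq_iff v S w).mpr h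
      rw [hϖ', hord w hw]
      exact_mod_cast w.ramificationIndex_pos (F := F)
  rw [← hs2, hseq]
  refine Finset.sum_congr rfl fun w hw => ?_
  rw [hϖ', hord w (Place.mem_fiber.mp hw)]

end Local2


section Concrete

variable {K : Type u} {F : Type v} {F' : Type w} [Field K] [Field F] [Field F']
  [Algebra K F] [Algebra K F'] [Algebra F F'] [IsScalarTower K F F']
variable [IsAlgClosed K]
variable [FiniteDimensional F F'] [Algebra.IsSeparable F F'] [HasPrincipalDivisors K F']

/-- **Fundamental identity**: `∑_{w | v} e(w|v) = [F' : F]` for every place `v` of `F`. -/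
theorem ptw_sum_ramificationIndex (x : F) [Algebra.IsAlgebraic K⟮x⟯ F] (v : Place K F) :
    ∑ w ∈ v.fiber F', (w.ramificationIndex F : ℤ) = (Module.finrank F F' : ℤ) := by
  letI algRF' : Algebra v.toValuationSubring F' :=
    ((algebraMap F F').comp (algebraMap v.toValuationSubring F)).toAlgebra
  haveI : IsScalarTower v.toValuationSubring F F' := IsScalarTower.of_algebraMap_eq' rfl
  haveI : IsScalarTower K v.toValuationSubring F' := IsScalarTower.of_algebraMap_eq fun a => by
    rw [IsScalarTower.algebraMap_apply K F F']
    rfl
  let S := integralClosure v.toValuationSubring F'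
  haveI hDed : IsDedekindDomain S := integralClosure.isDedekindDomain v.toValuationSubring F F'
  haveI hfin : Module.Finite v.toValuationSubring S :=
    IsIntegralClosure.finite v.toValuationSubring F F' S
  haveI hfrac : IsFractionRing S F' := integralClosure.isFractionRing_of_finite_extension F F'
  haveI hfaith : FaithfulSMul v.toValuationSubring S :=
    (faithfulSMul_iff_algebraMap_injective _ _).mpr (fun a b h => by
      have h' := congrArg (algebraMap S F') h
      have h2 : algebraMap F F' (a : F) = algebraMap F F' (b : F) := h'
      exact Subtype.ext ((algebraMap F F').injective h2))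
  have := ptw_sum_ramificationIndex_eq_finrank (K := K) (F := F) (F' := F') v S x
  rw [this, IsFractionRing.finrank_eq v.toValuationSubring F S F']

/-- All inertia degrees are one (`K` algebraically closed). -/
theorem ptw_inertiaDeg_eq_one [Algebra.IsIntegral F F'] (x : F) [Algebra.IsAlgebraic K⟮x⟯ F]
    (x' : F') [Algebra.IsAlgebraic K⟮x'⟯ F'] (w : Place K F') : w.inertiaDeg F = 1 := by
  have h := w.deg_restrict_mul_inertiaDeg (F := F)
  rw [hw_deg_eq_one x (w.restrict F), hw_deg_eq_one x' w, one_mul] at h
  exact h

/-- **The prelude class `SumRamificationInertia K F F'`** (hence `FundamentalIdentity K F F'`) for a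
finite separable extension `F'/F` of function fields over an algebraically closed field of any
characteristic. -/
theorem ptw_sumRamificationInertia (x : F) [Algebra.IsAlgebraic K⟮x⟯ F]
    (x' : F') [Algebra.IsAlgebraic K⟮x'⟯ F'] : SumRamificationInertia K F F' :=
  ⟨fun v => by
    rw [← ptw_sum_ramificationIndex x v]
    refine Finset.sum_congr rfl fun w _ => ?_
    rw [ptw_inertiaDeg_eq_one x x' w]
    simp⟩

/-- The prelude class `FundamentalIdentity K F F'`. -/
theorem ptw_fundamentalIdentity (x : F) [Algebra.IsAlgebraic K⟮x⟯ F]
    (x' : F') [Algebra.IsAlgebraic K⟮x'⟯ F'] : FundamentalIdentity K F F' :=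
  haveI := ptw_sumRamificationInertia (K := K) (F := F) (F' := F') x x'
  inferInstance

end Concrete


end Fermat.Agent.JT3
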