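/-
JT3 / T0b (helper24): RELATIVE place calculus, characteristic-free, part 2: the norm formula.

Setting as in `Tower.lean`: `K` algebraically closed (any characteristic), `F ⊆ F'` function fields
over `K`, `F'/F` finite separable, `v` a place of `F`, `S` the integral closure of `O_v` in `F'`.
For `z ∈ S ∖ 0` we compute `dim_K S/(z)` in two ways:
* `S` is a PID with residue fields `K`, so `dim_K S/(z) = ∑_{w | v} ord_w z` (induction on primes);
* `S` is free over the DVR `O_v`; Smith normal form gives `dim_K S/(z) = ord_v N_{S/O_v}(z)`.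
Hence `∑_{w | v} ord_w f = ord_v N_{F'/F} f` for all `f ∈ F'ˣ`, i.e. the prelude predicate
`Divisor.PushforwardNormFormula K F F'` (`ptw_normFormula`).  Prefix `ptw_`.
-/
import Mathlib
import Fermat.Agent.JT3.Places.Tower

set_option autoImplicit false
set_option linter.unusedSectionVars false
set_option linter.style.haveILetI false

namespace Fermat.Agent.JT3

open AlgebraicCurve IntermediateField Polynomial WithZero IsDedekindDomain
open Fermat.Agent.S24
open scoped nonZeroDivisors

universe u v w

section LengthQuot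
variable {K A : Type*} [Field K] [CommRing A] [IsDomain A] [Algebra K A]

/-- multiplication by `a` : `A/(b) → A/(ab)` -/
noncomputable def ptw_mulQ (a b : A) : (A ⧸ Ideal.span {b}) →ₗ[A] (A ⧸ Ideal.span {a * b}) :=
  Submodule.mapQ (Ideal.span {b}) (Ideal.span {a * b}) (LinearMap.mulLeft A a) (by
    intro y hy
    rw [Submodule.mem_comap, LinearMap.mulLeft_apply]
    obtain ⟨c, rfl⟩ := Ideal.mem_span_singleton'.mp hy
    exact Ideal.mem_span_singleton'.mpr ⟨c, by ring⟩)

/-- the projection `A/(ab) → A/(a)` -/
noncomputable def ptw_projQ (a b : A) : (A ⧸ Ideal.span {a * b}) →ₗ[A] (A ⧸ Ideal.span {a}) :=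
  Submodule.mapQ (Ideal.span {a * b}) (Ideal.span {a}) LinearMap.id (by
    intro y hy
    rw [Submodule.mem_comap, LinearMap.id_apply]
    obtain ⟨c, rfl⟩ := Ideal.mem_span_singleton'.mp hy
    exact Ideal.mem_span_singleton'.mpr ⟨c * b, by ring⟩)

theorem ptw_mulQ_mk (a b y : A) :
    ptw_mulQ a b (Ideal.Quotient.mk _ y) = Ideal.Quotient.mk _ (a * y) := rfl

theorem ptw_projQ_mk (a b y : A) :
    ptw_projQ a b (Ideal.Quotient.mk _ y) = Ideal.Quotient.mk _ y := rfl

theorem ptw_mulQ_injective {a : A} (ha : a ≠ 0) (b : A) : Function.Injective (ptw_mulQ a b) := by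
  rw [injective_iff_map_eq_zero]
  intro y hy
  obtain ⟨y, rfl⟩ := Ideal.Quotient.mk_surjective y
  rw [ptw_mulQ_mk, Ideal.Quotient.eq_zero_iff_mem, Ideal.mem_span_singleton'] at hy
  obtain ⟨c, hc⟩ := hy
  rw [Ideal.Quotient.eq_zero_iff_mem, Ideal.mem_span_singleton']
  refine ⟨c, mul_left_cancel₀ ha ?_⟩
  rw [← hc]; ring

theorem ptw_projQ_surjective (a b : A) : Function.Surjective (ptw_projQ a b) := by
  intro y
  obtain ⟨y, rfl⟩ := Ideal.Quotient.mk_surjective y
  exact ⟨Ideal.Quotient.mk _ y, rfl⟩

theorem ptw_exact_mulQ_projQ (a b : A) : Function.Exact (ptw_mulQ a b) (ptw_projQ a b) := by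
  intro y
  obtain ⟨y, rfl⟩ := Ideal.Quotient.mk_surjective y
  rw [ptw_projQ_mk, Ideal.Quotient.eq_zero_iff_mem, Ideal.mem_span_singleton']
  constructor
  · rintro ⟨c, rfl⟩
    exact ⟨Ideal.Quotient.mk _ c, by rw [ptw_mulQ_mk]; exact congrArg _ (mul_comm a c)⟩
  · rintro ⟨z, hz⟩
    obtain ⟨z, rfl⟩ := Ideal.Quotient.mk_surjective z
    rw [ptw_mulQ_mk, Ideal.Quotient.eq, Ideal.mem_span_singleton'] at hz
    obtain ⟨c, hc⟩ := hz
    exact ⟨z - c * b, by linear_combination (-1 : A) * hc⟩

/-- `dim_K A/(ab) = dim_K A/(a) + dim_K A/(b)` (as lengths, no finiteness needed). -/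
theorem ptw_length_quot_mul {a : A} (ha : a ≠ 0) (b : A) :
    Module.length K (A ⧸ Ideal.span {a * b}) =
      Module.length K (A ⧸ Ideal.span {a}) + Module.length K (A ⧸ Ideal.span {b}) := by
  rw [Module.length_eq_add_of_exact ((ptw_mulQ a b).restrictScalars K)
    ((ptw_projQ a b).restrictScalars K) (ptw_mulQ_injective ha b) (ptw_projQ_surjective a b)
    (ptw_exact_mulQ_projQ a b), add_comm]

theorem ptw_length_quot_unit {a : A} (ha : IsUnit a) :
    Module.length K (A ⧸ Ideal.span {a}) = 0 := by
  rw [Module.length_eq_zero_iff, Ideal.span_singleton_eq_top.mpr ha]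
  exact Ideal.Quotient.subsingleton_iff.mpr rfl

theorem ptw_length_quot_pow {a : A} (ha : a ≠ 0) (n : ℕ) :
    Module.length K (A ⧸ Ideal.span {a ^ n}) = n * Module.length K (A ⧸ Ideal.span {a}) := by
  induction n with
  | zero => simp
  | succ n ih =>
    rw [pow_succ', ptw_length_quot_mul ha, ih]
    push_cast
    ring

/-- If `K → A/(a)` is bijective then `dim_K A/(a) = 1`. -/
theorem ptw_length_quot_eq_one {a : A}
    (h : Function.Bijective (algebraMap K (A ⧸ Ideal.span {a}))) :
    Module.length K (A ⧸ Ideal.span {a}) = 1 := by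
  have e : K ≃ₗ[K] (A ⧸ Ideal.span {a}) :=
    LinearEquiv.ofBijective (Algebra.linearMap K (A ⧸ Ideal.span {a})) h
  rw [← e.length_eq, Module.length_eq_finrank, Module.finrank_self]
  rfl

end LengthQuot

section DVRside

variable {K : Type u} {F : Type v} [Field K] [Field F] [Algebra K F] [IsAlgClosed K]
variable (v : Place K F)

/-- `K → O_v/(ϖ)` is bijective. -/
theorem ptw_residue_bijective (x : F) [Algebra.IsAlgebraic K⟮x⟯ F]
    {ϖ : v.toValuationSubring} (hϖ : Irreducible ϖ) :
    Function.Bijective (algebraMap K (v.toValuationSubring ⧸ Ideal.span {ϖ})) := by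
  refine ⟨?_, ptw_residue_surjective v x hϖ⟩
  have hmax : (Ideal.span {ϖ}).IsMaximal := PrincipalIdealRing.isMaximal_of_irreducible hϖ
  have : Nontrivial (v.toValuationSubring ⧸ Ideal.span {ϖ}) :=
    Ideal.Quotient.nontrivial_iff.mpr hmax.ne_top
  exact (algebraMap K _).injective

/-- `dim_K O_v/(a) = ord_v a` for `a ≠ 0`. -/
theorem ptw_length_quot_valuationSubring (x : F) [Algebra.IsAlgebraic K⟮x⟯ F]
    {a : v.toValuationSubring} (ha : a ≠ 0) :
    Module.length K (v.toValuationSubring ⧸ Ideal.span {a}) = ((v.ord (a : F)).toNat : ℕ∞) := by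
  obtain ⟨ϖ, hϖ⟩ := IsDiscreteValuationRing.exists_irreducible v.toValuationSubring
  obtain ⟨n, u, hu⟩ := IsDiscreteValuationRing.eq_unit_mul_pow_irreducible ha hϖ
  have hord : v.ord (a : F) = n := by
    rw [hu]
    push_cast
    rw [← zpow_natCast, v.ord_unit_smul_zpow u hϖ n]
  rw [hord, Int.toNat_natCast, hu, ptw_length_quot_mul (K := K) u.ne_zero,
    ptw_length_quot_unit (K := K) u.isUnit, zero_add, ptw_length_quot_pow (K := K) hϖ.ne_zero,
    ptw_length_quot_eq_one (ptw_residue_bijective v x hϖ), mul_one]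

end DVRside

section Sside

variable {K : Type u} {F : Type v} {F' : Type w} [Field K] [Field F] [Field F']
  [Algebra K F] [Algebra K F'] [Algebra F F'] [IsScalarTower K F F']
variable [IsAlgClosed K]
variable (v : Place K F)
variable [Algebra v.toValuationSubring F'] [IsScalarTower v.toValuationSubring F F']
variable (S : Type*) [CommRing S] [IsDedekindDomain S] [Algebra K S]
  [Algebra v.toValuationSubring S] [Algebra S F']
  [IsScalarTower v.toValuationSubring S F'] [IsScalarTower K S F'] [IsFractionRing S F']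
  [IsScalarTower K v.toValuationSubring S]
  [Module.Finite v.toValuationSubring S] [FaithfulSMul v.toValuationSubring S]
variable [Algebra.IsIntegral F F'] [HasPrincipalDivisors K F']

/-- The place of a maximal ideal of `S` lies over `v`. -/
theorem ptw_placeOfPrime_mem_fiber (Q : HeightOneSpectrum S) :
    hw_placeOfPrime (K := K) (F := F') S Q ∈ v.fiber F' := by
  rw [Place.mem_fiber, ptw_restrict_eq_iff v S]
  exact fun s => hw_placeOfPrime_algebraMap_mem S Q s

/-- A place over `v` contains `S`. -/
theorem ptw_mem_of_mem_fiber {w : Place K F'} (hw : w ∈ v.fiber F') (s : S) :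
    algebraMap S F' s ∈ w.toValuationSubring :=
  (ptw_restrict_eq_iff v S w).mp (Place.mem_fiber.mp hw) s

/-- Every place over `v` is the place of a maximal ideal of `S`. -/
theorem ptw_eq_placeOfPrime {w : Place K F'} (hw : w ∈ v.fiber F') :
    hw_placeOfPrime S (hw_primeOfPlace w (ptw_mem_of_mem_fiber v S hw)) = w :=
  hw_placeOfPrime_primeOfPlace w _

include v F' in
theorem ptw_finite_heightOneSpectrum : Finite (HeightOneSpectrum S) := by
  let g : HeightOneSpectrum S → (v.fiber F' : Finset (Place K F')) := fun Q =>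
    ⟨hw_placeOfPrime S Q, ptw_placeOfPrime_mem_fiber v S Q⟩
  have hg : Function.Injective g := by
    intro Q Q' h
    have h' : hw_placeOfPrime (K := K) (F := F') S Q = hw_placeOfPrime S Q' :=
      congrArg Subtype.val h
    rw [← hw_primeOfPlace_placeOfPrime (K := K) (F := F') Q,
      ← hw_primeOfPlace_placeOfPrime (K := K) (F := F') Q']
    congr 1
  exact Finite.of_injective g hg

include v F' in
theorem ptw_isPrincipalIdealRing : IsPrincipalIdealRing S := by
  have hfin := ptw_finite_heightOneSpectrum (F' := F') v S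
  apply IsPrincipalIdealRing.of_finite_primes
  have hsub : {I : Ideal S | I.IsPrime} ⊆
      {⊥} ∪ Set.range (fun Q : HeightOneSpectrum S => Q.asIdeal) := by
    intro I hI
    by_cases h0 : I = ⊥
    · exact Or.inl h0
    · exact Or.inr ⟨⟨I, hI, h0⟩, rfl⟩
  exact ((Set.finite_singleton _).union (Set.finite_range _)).subset hsub

/-- Elements of `S` have nonnegative order at the places over `v`. -/
theorem ptw_ord_nonneg {w : Place K F'} (hw : w ∈ v.fiber F') {z : S} (hz : z ≠ 0) :
    0 ≤ w.ord (algebraMap S F' z) := by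
  have hz' : algebraMap S F' z ≠ 0 := by
    rwa [Ne, map_eq_zero_iff _ (IsFractionRing.injective S F')]
  exact (hw_mem_iff_ord_nonneg w hz').mp (ptw_mem_of_mem_fiber v S hw z)

/-- Units of `S` have order zero at the places over `v`. -/
theorem ptw_ord_unit {w : Place K F'} (hw : w ∈ v.fiber F') {z : S} (hz : IsUnit z) :
    w.ord (algebraMap S F' z) = 0 := by
  obtain ⟨u, rfl⟩ := hz
  have h1 := ptw_ord_nonneg v S hw (z := (u : S)) u.ne_zero
  have h2 := ptw_ord_nonneg v S hw (z := ((u⁻¹ : Sˣ) : S)) (u⁻¹).ne_zero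
  have hmul : algebraMap S F' (u : S) * algebraMap S F' ((u⁻¹ : Sˣ) : S) = 1 := by
    rw [← map_mul, Units.mul_inv, map_one]
  have hu' : algebraMap S F' (u : S) ≠ 0 := left_ne_zero_of_mul_eq_one hmul
  have hu'' : algebraMap S F' ((u⁻¹ : Sˣ) : S) ≠ 0 := right_ne_zero_of_mul_eq_one hmul
  have := w.ord_mul hu' hu''
  rw [hmul, Place.ord_one] at this
  omega

end Sside

section Sside2

variable {K : Type u} {F : Type v} {F' : Type w} [Field K] [Field F] [Field F']
  [Algebra K F] [Algebra K F'] [Algebra F F'] [IsScalarTower K F F']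
variable [IsAlgClosed K]
variable (v : Place K F)
variable [Algebra v.toValuationSubring F'] [IsScalarTower v.toValuationSubring F F']
variable (S : Type*) [CommRing S] [IsDedekindDomain S] [Algebra K S]
  [Algebra v.toValuationSubring S] [Algebra S F']
  [IsScalarTower v.toValuationSubring S F'] [IsScalarTower K S F'] [IsFractionRing S F']
  [IsScalarTower K v.toValuationSubring S]
  [Module.Finite v.toValuationSubring S] [FaithfulSMul v.toValuationSubring S]
variable [Algebra.IsIntegral F F'] [HasPrincipalDivisors K F']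

/-- The height one prime generated by a prime element. -/
def ptw_primeOf {p : S} (hp : Prime p) : HeightOneSpectrum S :=
  ⟨Ideal.span {p}, (Ideal.span_singleton_prime hp.ne_zero).mpr hp,
    by rw [Ne, Ideal.span_singleton_eq_bot]; exact hp.ne_zero⟩

theorem ptw_ord_prime_self {p : S} (hp : Prime p) :
    (hw_placeOfPrime (K := K) (F := F') S (ptw_primeOf S hp)).ord (algebraMap S F' p) = 1 := by
  rw [hw_placeOfPrime_ord, HeightOneSpectrum.valuation_of_algebraMap,
    HeightOneSpectrum.intValuation_singleton _ hp.ne_zero rfl, log_exp, neg_neg]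

theorem ptw_ord_prime_other {p : S} (hp : Prime p) {w : Place K F'} (hw : w ∈ v.fiber F')
    (hne : w ≠ hw_placeOfPrime S (ptw_primeOf S hp)) : w.ord (algebraMap S F' p) = 0 := by
  set Q := hw_primeOfPlace w (ptw_mem_of_mem_fiber v S hw) with hQ
  have hwQ : hw_placeOfPrime S Q = w := ptw_eq_placeOfPrime v S hw
  have hQne : Q ≠ ptw_primeOf S hp := by
    intro h
    apply hne
    rw [← hwQ, h]
  have hpQ : p ∉ Q.asIdeal := by
    intro hmem
    apply hQne
    apply HeightOneSpectrum.ext
    have hle : (ptw_primeOf S hp).asIdeal ≤ Q.asIdeal := by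
      change Ideal.span {p} ≤ Q.asIdeal
      rw [Ideal.span_le, Set.singleton_subset_iff]
      exact hmem
    have hmax : (ptw_primeOf S hp).asIdeal.IsMaximal :=
      (ptw_primeOf S hp).isPrime.isMaximal (ptw_primeOf S hp).ne_bot
    exact (hmax.eq_of_le Q.isPrime.ne_top hle).symm
  rw [← hwQ, hw_placeOfPrime_ord, HeightOneSpectrum.valuation_of_algebraMap,
    HeightOneSpectrum.intValuation_eq_one_iff.mpr hpQ]
  simp

/-- `∑_{w | v} ord_w p = 1` for a prime element `p` of `S`. -/
theorem ptw_sum_ord_prime {p : S} (hp : Prime p) :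
    ∑ w ∈ v.fiber F', w.ord (algebraMap S F' p) = 1 := by
  rw [Finset.sum_eq_single_of_mem (hw_placeOfPrime S (ptw_primeOf S hp))
    (ptw_placeOfPrime_mem_fiber v S _)
    (fun w hw hne => ptw_ord_prime_other v S hp hw hne), ptw_ord_prime_self]

/-- `K → S/(p)` is bijective for a prime element `p`. -/
theorem ptw_quot_prime_bijective (x' : F') [Algebra.IsAlgebraic K⟮x'⟯ F'] {p : S}
    (hp : Prime p) : Function.Bijective (algebraMap K (S ⧸ Ideal.span {p})) := by
  have hprime : (Ideal.span {p}).IsPrime := (Ideal.span_singleton_prime hp.ne_zero).mpr hp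
  have : Nontrivial (S ⧸ Ideal.span {p}) := Ideal.Quotient.nontrivial_iff.mpr hprime.ne_top
  refine ⟨(algebraMap K _).injective, ?_⟩
  intro y
  obtain ⟨s, rfl⟩ := Ideal.Quotient.mk_surjective y
  set w := hw_placeOfPrime (K := K) (F := F') S (ptw_primeOf S hp) with hwdef
  have hsw : algebraMap S F' s ∈ w.toValuationSubring :=
    hw_placeOfPrime_algebraMap_mem S _ s
  obtain ⟨c, hc⟩ := hw_exists_const x' w hsw
  refine ⟨c, ?_⟩
  rw [IsScalarTower.algebraMap_apply K S, Ideal.Quotient.algebraMap_eq,
    Ideal.Quotient.mk_eq_mk_iff_sub_mem]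
  have hcS : algebraMap S F' (algebraMap K S c) = algebraMap K F' c :=
    (IsScalarTower.algebraMap_apply K S F' c).symm
  rcases hc with hc | hc
  · have : algebraMap K S c - s = 0 := by
      apply IsFractionRing.injective S F'
      rw [map_sub, hcS, hc, sub_self, map_zero]
    rw [this]; exact zero_mem _
  · -- `s - c` has positive order at `w`, hence lies in the prime
    have hmem : (s - algebraMap K S c) ∈ (ptw_primeOf S hp).asIdeal := by
      have h1 := hw_primeOfPlace_placeOfPrime (K := K) (F := F') (ptw_primeOf S hp)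
      rw [← h1, hw_mem_primeOfPlace_iff]
      intro hu
      have h2 := (w.adicValuation_coe_eq_one_iff _).mpr hu
      rw [hw_inclB_coe, map_sub, hcS] at h2
      rw [hw_ord_eq_neg_log, h2] at hc
      simp at hc
    have : algebraMap K S c - s = -(s - algebraMap K S c) := by ring
    rw [this]
    exact neg_mem hmem

end Sside2

section Sside3

variable {K : Type u} {F : Type v} {F' : Type w} [Field K] [Field F] [Field F']
  [Algebra K F] [Algebra K F'] [Algebra F F'] [IsScalarTower K F F']
variable [IsAlgClosed K]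
variable (v : Place K F)
variable [Algebra v.toValuationSubring F'] [IsScalarTower v.toValuationSubring F F']
variable (S : Type*) [CommRing S] [IsDedekindDomain S] [Algebra K S]
  [Algebra v.toValuationSubring S] [Algebra S F']
  [IsScalarTower v.toValuationSubring S F'] [IsScalarTower K S F'] [IsFractionRing S F']
  [IsScalarTower K v.toValuationSubring S]
  [Module.Finite v.toValuationSubring S] [FaithfulSMul v.toValuationSubring S]
variable [Algebra.IsIntegral F F'] [HasPrincipalDivisors K F']

theorem ptw_algebraMap_ne_zero {z : S} (hz : z ≠ 0) : algebraMap S F' z ≠ 0 := by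
  rwa [Ne, map_eq_zero_iff _ (IsFractionRing.injective S F')]

/-- `dim_K S/(z) = ∑_{w | v} ord_w z`. -/
theorem ptw_length_quot_S (x' : F') [Algebra.IsAlgebraic K⟮x'⟯ F'] {z : S} (hz : z ≠ 0) :
    Module.length K (S ⧸ Ideal.span {z}) =
      (((∑ w ∈ v.fiber F', w.ord (algebraMap S F' z)).toNat : ℕ) : ℕ∞) := by
  haveI := ptw_isPrincipalIdealRing (F' := F') v S
  revert hz
  refine UniqueFactorizationMonoid.induction_on_prime z (fun h => absurd rfl h) ?_ ?_
  · intro u hu _
    rw [ptw_length_quot_unit (K := K) hu,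
      Finset.sum_eq_zero (fun w hw => ptw_ord_unit v S hw hu)]
    simp
  · intro a p ha hp ih _
    rw [ptw_length_quot_mul (K := K) hp.ne_zero, ih ha,
      ptw_length_quot_eq_one (ptw_quot_prime_bijective (K := K) (F' := F') S x' hp)]
    have hsum : ∑ w ∈ v.fiber F', w.ord (algebraMap S F' (p * a)) =
        1 + ∑ w ∈ v.fiber F', w.ord (algebraMap S F' a) := by
      rw [← ptw_sum_ord_prime (F' := F') v S hp, ← Finset.sum_add_distrib]
      refine Finset.sum_congr rfl fun w _ => ?_
      rw [map_mul, w.ord_mul (ptw_algebraMap_ne_zero S hp.ne_zero) (ptw_algebraMap_ne_zero S ha)]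
    rw [hsum]
    have hnn : 0 ≤ ∑ w ∈ v.fiber F', w.ord (algebraMap S F' a) :=
      Finset.sum_nonneg fun w hw => ptw_ord_nonneg v S hw ha
    have : (1 + ∑ w ∈ v.fiber F', w.ord (algebraMap S F' a)).toNat =
        1 + (∑ w ∈ v.fiber F', w.ord (algebraMap S F' a)).toNat := by omega
    rw [this]
    push_cast
    rfl

end Sside3

section PlaceOrd
variable {K : Type u} {F : Type v} [Field K] [Field F] [Algebra K F]
variable (v : Place K F)

theorem ptw_ord_prod {ι : Type*} (s : Finset ι) (f : ι → F) (hf : ∀ i ∈ s, f i ≠ 0) :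
    v.ord (∏ i ∈ s, f i) = ∑ i ∈ s, v.ord (f i) := by
  classical
  induction s using Finset.induction_on with
  | empty => simp
  | insert a s ha ih =>
    rw [Finset.prod_insert ha, Finset.sum_insert ha,
      v.ord_mul (hf a (Finset.mem_insert_self a s))
        (Finset.prod_ne_zero_iff.mpr fun i hi => hf i (Finset.mem_insert_of_mem hi)),
      ih fun i hi => hf i (Finset.mem_insert_of_mem hi)]

theorem ptw_ord_associated {a b : v.toValuationSubring} (h : Associated a b) :
    v.ord (a : F) = v.ord (b : F) := by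
  obtain ⟨u, rfl⟩ := h
  by_cases ha : a = 0
  · simp [ha]
  have ha' : (a : F) ≠ 0 := fun h0 => ha (Subtype.ext h0)
  have hu' : ((u : v.toValuationSubring) : F) ≠ 0 := fun h0 => u.ne_zero (Subtype.ext h0)
  push_cast
  rw [v.ord_mul ha' hu', v.ord_coe_unit, add_zero]

end PlaceOrd

section Sside4

variable {K : Type u} {F : Type v} {F' : Type w} [Field K] [Field F] [Field F']
  [Algebra K F] [Algebra K F'] [Algebra F F'] [IsScalarTower K F F']
variable [IsAlgClosed K]
variable (v : Place K F)
variable [Algebra v.toValuationSubring F'] [IsScalarTower v.toValuationSubring F F']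
variable (S : Type*) [CommRing S] [IsDedekindDomain S] [Algebra K S]
  [Algebra v.toValuationSubring S] [Algebra S F']
  [IsScalarTower v.toValuationSubring S F'] [IsScalarTower K S F'] [IsFractionRing S F']
  [IsScalarTower K v.toValuationSubring S]
  [Module.Finite v.toValuationSubring S] [FaithfulSMul v.toValuationSubring S]
variable [Algebra.IsIntegral F F'] [HasPrincipalDivisors K F']

theorem ptw_free : Module.Free v.toValuationSubring S := by
  haveI : Module.IsTorsionFree v.toValuationSubring S := inferInstance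
  infer_instance

/-- `dim_K S/(z) = ord_v N_{S/O_v}(z)`. -/
theorem ptw_length_quot_S_norm (x : F) [Algebra.IsAlgebraic K⟮x⟯ F] {z : S} (hz : z ≠ 0) :
    Module.length K (S ⧸ Ideal.span {z}) =
      (((v.ord ((Algebra.norm v.toValuationSubring z : v.toValuationSubring) : F)).toNat : ℕ) : ℕ∞) := by
  classical
  haveI := ptw_free v S
  let b := Module.Free.chooseBasis v.toValuationSubring S
  have hI : Ideal.span {z} ≠ ⊥ := Ideal.span_singleton_eq_bot.not.2 hz
  let e := (Ideal.quotientEquivPiSpan (Ideal.span {z}) b hI).restrictScalars K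
  rw [e.length_eq, Module.length_pi_of_fintype]
  have hne : ∀ i, (Ideal.span {z}).smithCoeffs b hI i ≠ 0 := fun i =>
    Ideal.smithCoeffs_ne_zero b _ hI i
  simp_rw [fun i => ptw_length_quot_valuationSubring v x (hne i)]
  rw [ptw_ord_associated v (associated_norm_prod_smith b hz)]
  push_cast
  rw [ptw_ord_prod v _ _ (fun i _ h0 => hne i (Subtype.ext h0))]
  have hnn : ∀ i, 0 ≤ v.ord (((Ideal.span {z}).smithCoeffs b hI i : v.toValuationSubring) : F) :=
    fun i => (hw_mem_iff_ord_nonneg v (fun h0 => hne i (Subtype.ext h0))).mp (Subtype.mem _)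
  rw [← Nat.cast_sum]
  congr 1
  have h1 : ((∑ i, (v.ord (((Ideal.span {z}).smithCoeffs b hI i : v.toValuationSubring) : F)).toNat : ℕ) : ℤ) =
      ∑ i, v.ord (((Ideal.span {z}).smithCoeffs b hI i : v.toValuationSubring) : F) := by
    push_cast
    exact Finset.sum_congr rfl fun i _ => Int.toNat_of_nonneg (hnn i)
  omega

end Sside4

section Sside5

variable {K : Type u} {F : Type v} {F' : Type w} [Field K] [Field F] [Field F']
  [Algebra K F] [Algebra K F'] [Algebra F F'] [IsScalarTower K F F']
variable [IsAlgClosed K]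
variable (v : Place K F)
variable [Algebra v.toValuationSubring F'] [IsScalarTower v.toValuationSubring F F']
variable (S : Type*) [CommRing S] [IsDedekindDomain S] [Algebra K S]
  [Algebra v.toValuationSubring S] [Algebra S F']
  [IsScalarTower v.toValuationSubring S F'] [IsScalarTower K S F'] [IsFractionRing S F']
  [IsScalarTower K v.toValuationSubring S]
  [Module.Finite v.toValuationSubring S] [FaithfulSMul v.toValuationSubring S]
variable [FiniteDimensional F F'] [HasPrincipalDivisors K F']
variable [IsLocalization (Algebra.algebraMapSubmonoid S (v.toValuationSubring)⁰) F']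

/-- The norm formula for elements of `S`. -/
theorem ptw_sum_ord_eq_ord_norm_S (x : F) [Algebra.IsAlgebraic K⟮x⟯ F]
    (x' : F') [Algebra.IsAlgebraic K⟮x'⟯ F'] {z : S} (hz : z ≠ 0) :
    ∑ w ∈ v.fiber F', w.ord (algebraMap S F' z) = v.ord (Algebra.norm F (algebraMap S F' z)) := by
  haveI := ptw_free v S
  have h1 := ptw_length_quot_S (F' := F') v S x' hz
  rw [ptw_length_quot_S_norm v S x hz] at h1
  have h2 : Algebra.norm F (algebraMap S F' z) =
      algebraMap v.toValuationSubring F (Algebra.norm v.toValuationSubring z) :=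
    Algebra.norm_localization v.toValuationSubring (v.toValuationSubring)⁰ (Rₘ := F) (Sₘ := F') z
  rw [h2]
  have hnn : 0 ≤ ∑ w ∈ v.fiber F', w.ord (algebraMap S F' z) :=
    Finset.sum_nonneg fun w hw => ptw_ord_nonneg v S hw hz
  have hN0 : Algebra.norm v.toValuationSubring z ≠ 0 := by
    rw [Ne, Algebra.norm_eq_zero_iff]; exact hz
  have hnn' : 0 ≤ v.ord ((Algebra.norm v.toValuationSubring z : v.toValuationSubring) : F) :=
    (hw_mem_iff_ord_nonneg v (fun h0 => hN0 (Subtype.ext h0))).mp (Subtype.mem _)
  have h3 : (v.ord ((Algebra.norm v.toValuationSubring z : v.toValuationSubring) : F)).toNat =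
      (∑ w ∈ v.fiber F', w.ord (algebraMap S F' z)).toNat := by exact_mod_cast h1
  change _ = v.ord ((Algebra.norm v.toValuationSubring z : v.toValuationSubring) : F)
  omega

include S in
/-- The norm formula for all nonzero elements of `F'`. -/
theorem ptw_sum_ord_eq_ord_norm (x : F) [Algebra.IsAlgebraic K⟮x⟯ F]
    (x' : F') [Algebra.IsAlgebraic K⟮x'⟯ F'] {f : F'} (hf : f ≠ 0) :
    ∑ w ∈ v.fiber F', w.ord f = v.ord (Algebra.norm F f) := by
  obtain ⟨⟨z, m⟩, hzm⟩ :=
    IsLocalization.surj (Algebra.algebraMapSubmonoid S (v.toValuationSubring)⁰) f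
  have hm0 : (m : S) ≠ 0 := by
    obtain ⟨r, hr, hrm⟩ := m.2
    rw [← hrm, Ne, map_eq_zero_iff _ (FaithfulSMul.algebraMap_injective v.toValuationSubring S)]
    exact nonZeroDivisors.ne_zero hr
  have hm' := ptw_algebraMap_ne_zero (F' := F') S hm0
  have hz' : algebraMap S F' z ≠ 0 := by
    rw [← hzm]; exact mul_ne_zero hf hm'
  have hz0 : z ≠ 0 := fun h => hz' (by rw [h, map_zero])
  have e1 := ptw_sum_ord_eq_ord_norm_S v S x x' hz0
  have e2 := ptw_sum_ord_eq_ord_norm_S v S x x' hm0
  have e3 : ∑ w ∈ v.fiber F', w.ord (algebraMap S F' z) =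
      ∑ w ∈ v.fiber F', w.ord f + ∑ w ∈ v.fiber F', w.ord (algebraMap S F' (m : S)) := by
    rw [← Finset.sum_add_distrib]
    refine Finset.sum_congr rfl fun w _ => ?_
    rw [← hzm, w.ord_mul hf hm']
  have e4 : v.ord (Algebra.norm F (algebraMap S F' z)) =
      v.ord (Algebra.norm F f) + v.ord (Algebra.norm F (algebraMap S F' (m : S))) := by
    rw [← hzm, map_mul, v.ord_mul (Algebra.norm_ne_zero_iff.mpr hf)
      (Algebra.norm_ne_zero_iff.mpr hm')]
  omega

end Sside5

section Concrete2

variable {K : Type u} {F : Type v} {F' : Type w} [Field K] [Field F] [Field F']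
  [Algebra K F] [Algebra K F'] [Algebra F F'] [IsScalarTower K F F']
variable [IsAlgClosed K]
variable [FiniteDimensional F F'] [Algebra.IsSeparable F F'] [HasPrincipalDivisors K F']

/-- **Norm formula, place by place**: `∑_{w | v} ord_w f = ord_v N_{F'/F} f`. -/
theorem ptw_sum_ord_fiber (x : F) [Algebra.IsAlgebraic K⟮x⟯ F]
    (x' : F') [Algebra.IsAlgebraic K⟮x'⟯ F'] (v : Place K F) {f : F'} (hf : f ≠ 0) :
    ∑ w ∈ v.fiber F', w.ord f = v.ord (Algebra.norm F f) := by
  letI algRF' : Algebra v.toValuationSubring F' :=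
    ((algebraMap F F').comp (algebraMap v.toValuationSubring F)).toAlgebra
  haveI : IsScalarTower v.toValuationSubring F F' := IsScalarTower.of_algebraMap_eq' rfl
  haveI : IsScalarTower K v.toValuationSubring F' := IsScalarTower.of_algebraMap_eq fun a => by
    rw [IsScalarTower.algebraMap_apply K F F']
    rfl
  let S := integralClosure v.toValuationSubring F'
  haveI hDed : IsDedekindDomain S := integralClosure.isDedekindDomain v.toValuationSubring F F'
  haveI hfin : Module.Finite v.toValuationSubring S :=
    IsIntegralClosure.finite v.toValuationSubring F F' S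
  haveI hfrac : IsFractionRing S F' := integralClosure.isFractionRing_of_finite_extension F F'
  haveI hfaith : FaithfulSMul v.toValuationSubring S :=
    (faithfulSMul_iff_algebraMap_injective _ _).mpr (fun a b h => by
      have h' := congrArg (algebraMap S F') h
      have h2 : algebraMap F F' (a : F) = algebraMap F F' (b : F) := h'
      exact Subtype.ext ((algebraMap F F').injective h2))
  haveI hloc : IsLocalization (Algebra.algebraMapSubmonoid S (v.toValuationSubring)⁰) F' :=
    IsIntegralClosure.isLocalization v.toValuationSubring F F' S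
  exact ptw_sum_ord_eq_ord_norm (K := K) (F := F) (F' := F') v S x x' hf

/-- **The prelude predicate `Divisor.PushforwardNormFormula K F F'`** for a finite separable
extension of function fields over an algebraically closed field of any characteristic. -/
theorem ptw_normFormula (x : F) [Algebra.IsAlgebraic K⟮x⟯ F]
    (x' : F') [Algebra.IsAlgebraic K⟮x'⟯ F'] : Divisor.PushforwardNormFormula K F F' := by
  classical
  intro f hf D hD v
  rw [Divisor.pushforward_apply, ← ptw_sum_ord_fiber x x' v hf, ← Finset.sum_filter]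
  have hsub : D.support.filter (fun w => w.restrict F = v) ⊆ v.fiber F' := by
    intro w hw
    rw [Finset.mem_filter] at hw
    exact Place.mem_fiber.mpr hw.2
  rw [Finset.sum_subset hsub]
  · refine Finset.sum_congr rfl fun w _ => ?_
    rw [ptw_inertiaDeg_eq_one x x' w, hD w]
    simp
  · intro w hw hnot
    have hw' := Place.mem_fiber.mp hw
    have : w ∉ D.support := fun h => hnot (Finset.mem_filter.mpr ⟨h, hw'⟩)
    rw [Finsupp.notMem_support_iff.mp this]
    simp

end Concrete2

end Fermat.Agent.JT3
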