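/-
JT3 / T0b (helper24): RELATIVE place calculus, characteristic-free, part 3: the `Along` forms.

The prelude states the inputs of a correspondence for an abstract `K`-algebra hom `φ : F →ₐ[K] F'`
(`FiniteAlong`, `FundamentalIdentityAlong`, `NormFormulaAlong`).  This file transports
`ptw_fundamentalIdentity` and `ptw_normFormula` to that form.  Prefix `ptw_`.
-/
import Mathlib
import Fermat.Agent.JT3.Places.TowerNorm

set_option autoImplicit false
set_option linter.unusedSectionVars false
set_option linter.style.haveILetI false

namespace Fermat.Agent.JT3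

open AlgebraicCurve IntermediateField

universe u v w

section Along

variable {K : Type u} {F : Type v} {F' : Type w} [Field K] [Field F] [Field F']
  [Algebra K F] [Algebra K F']

/-- `F'` is separable over `F` along `φ`. -/
def ptw_SeparableAlong (φ : F →ₐ[K] F') : Prop :=
  letI := algebraAlong φ
  Algebra.IsSeparable F F'

/-- A finite `φ` is integral. -/
theorem ptw_isIntegral_of_finiteAlong (φ : F →ₐ[K] F') (hfin : FiniteAlong K φ) :
    φ.toRingHom.IsIntegral := by
  letI := algebraAlong φ
  haveI : Module.Finite F F' := hfin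
  exact (Algebra.IsIntegral.of_finite F F').isIntegral

/-- In characteristic zero every finite `φ` is separable. -/
theorem ptw_separableAlong_of_charZero [CharZero K] (φ : F →ₐ[K] F') (hfin : FiniteAlong K φ) :
    ptw_SeparableAlong φ := by
  letI := algebraAlong φ
  haveI : Module.Finite F F' := hfin
  haveI : CharZero F := charZero_of_injective_algebraMap (algebraMap K F).injective
  change Algebra.IsSeparable F F'
  infer_instance

/-- `φ` is finite as soon as `F'` is finite over `K(φ x)` for some `x : F`. -/
theorem ptw_finiteAlong_of_adjoin (φ : F →ₐ[K] F') (x : F) [FiniteDimensional K⟮φ x⟯ F'] :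
    FiniteAlong K φ := by
  letI := algebraAlong φ
  obtain ⟨s, hs⟩ := (Module.Finite.fg_top : (⊤ : Submodule K⟮φ x⟯ F').FG)
  refine ⟨⟨s, ?_⟩⟩
  rw [eq_top_iff]
  intro y hy0
  clear hy0
  have hy : y ∈ Submodule.span K⟮φ x⟯ (s : Set F') := by rw [hs]; trivial
  induction hy using Submodule.span_induction with
  | mem z hz => exact Submodule.subset_span hz
  | zero => exact zero_mem _
  | add a b _ _ ha hb => exact add_mem ha hb
  | smul c z _ hz =>
    have hc : (c : F') ∈ φ.fieldRange :=
      (adjoin_simple_le_iff.mpr (⟨x, rfl⟩ : φ x ∈ φ.fieldRange)) c.2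
    obtain ⟨d, hd⟩ := hc
    have hcd : c • z = d • z := by
      rw [Algebra.smul_def, Algebra.smul_def]
      change (c : F') * z = φ d * z
      rw [← hd]
      rfl
    rw [hcd]
    exact Submodule.smul_mem _ d hz

variable [IsAlgClosed K] [HasPrincipalDivisors K F']

/-- **`FundamentalIdentityAlong`** for a finite separable `φ` (any characteristic). -/
theorem ptw_fundamentalIdentityAlong (φ : F →ₐ[K] F') (hφ : φ.toRingHom.IsIntegral)
    (hfin : FiniteAlong K φ) (hsep : ptw_SeparableAlong φ)
    (x : F) [Algebra.IsAlgebraic K⟮x⟯ F] (x' : F') [Algebra.IsAlgebraic K⟮x'⟯ F'] :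
    FundamentalIdentityAlong K φ hφ := by
  letI := algebraAlong φ
  haveI := isScalarTower_along φ
  haveI : Module.Finite F F' := hfin
  haveI : Algebra.IsSeparable F F' := hsep
  exact ptw_fundamentalIdentity (K := K) (F := F) (F' := F') x x'

/-- **`NormFormulaAlong`** for a finite separable `φ` (any characteristic). -/
theorem ptw_normFormulaAlong (φ : F →ₐ[K] F') (hfin : FiniteAlong K φ)
    (hsep : ptw_SeparableAlong φ)
    (x : F) [Algebra.IsAlgebraic K⟮x⟯ F] (x' : F') [Algebra.IsAlgebraic K⟮x'⟯ F'] :
    NormFormulaAlong K φ hfin := by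
  letI := algebraAlong φ
  haveI := isScalarTower_along φ
  haveI : Module.Finite F F' := hfin
  haveI : Algebra.IsSeparable F F' := hsep
  exact ptw_normFormula (K := K) (F := F) (F' := F') x x'

end Along

end Fermat.Agent.JT3
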