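/-
JT3 / T0b-lite (helper24): the CHARACTERISTIC-FREE place calculus for a function field `F/K`,
`K` algebraically closed of ANY characteristic, with ONE separating element `x`
(`[FiniteDimensional K⟮x⟯ F] [Algebra.IsSeparable K⟮x⟯ F]`).  Prefix `pcf_`.

S24/Hurwitz proves the same statements under `[CharZero K]`; the only use of characteristic zero
there is the Dedekind-ness / finiteness of the integral closure of `K[x]` in `F`, which holds for
every finite SEPARABLE `F/K(x)`.  (`hw_deg_eq_one`, `hw_exists_const`, `hw_placeOfPrime`,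
`hw_primeOfPlace`, `hw_sum_ord_eq_finrank` of S24/Hurwitz are already characteristic-free.)

* `pcf_sum_ord_sub_const` : the places over `x = c` are finitely many and
  `∑ ord_v (x - c) = [F : K(x)]`;
* `pcf_sum_ord_poles`     : the poles of `x` are finitely many and `∑ ord_v x = -[F : K(x)]`;
* `pcf_finite_fiber`, `pcf_finite_poles`, `pcf_sum_fiber_toFinset`, `pcf_sum_poles_toFinset`;
* `pcf_isSeparable_inv`, `pcf_isSeparable_sub_const` : `x⁻¹`, `x - c` are separating as well;
* `pcf_exists_pole`, `pcf_exists_zero` : `x` has at least one pole / `x - c` at least one zero;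
* `pcf_ncard_fiber_le`, `pcf_ncard_poles_le` : at most `[F : K(x)]` places in each fibre;
* `pcf_ord_eq_one_of_ncard` : a fibre with `[F : K(x)]` places is unramified.
-/
import Mathlib
import Fermat.Agent.S24.Hurwitz.FunctionField

set_option autoImplicit false

namespace Fermat.Agent.JT3

open AlgebraicCurve IntermediateField Polynomial WithZero IsDedekindDomain
open Fermat.Agent.S24
open scoped IntermediateField.algebraAdjoinAdjoin

universe u v
variable {K : Type u} {F : Type v} [Field K] [Field F] [Algebra K F]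

section Concrete
variable [IsAlgClosed K]

/-- **Fundamental identity** for a function field `F/K(x)`, `K` algebraically closed of arbitrary
characteristic, `F/K(x)` finite separable, at a finite point `c`: the places above `x = c` are
finitely many and their ramification indices `ord_v (x - c)` add up to `[F : K(x)]`. -/
theorem pcf_sum_ord_sub_const {x : F} (hx : Transcendental K x) [FiniteDimensional K⟮x⟯ F]
    [Algebra.IsSeparable K⟮x⟯ F] (c : K) :
    ∃ s : Finset (Place K F),
      (∀ v, v ∈ s ↔ 0 < v.ord (x - algebraMap K F c)) ∧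
      ∑ v ∈ s, v.ord (x - algebraMap K F c) = (Module.finrank K⟮x⟯ F : ℤ) := by
  have hPID := hw_isPrincipalIdealRing_adjoin hx
  have hDed := integralClosure.isDedekindDomain (Algebra.adjoin K ({x} : Set F)) K⟮x⟯ F
  have hfin : Module.Finite (Algebra.adjoin K ({x} : Set F))
      (integralClosure (Algebra.adjoin K ({x} : Set F)) F) :=
    IsIntegralClosure.finite (Algebra.adjoin K ({x} : Set F)) K⟮x⟯ F _
  have hfrac : IsFractionRing (integralClosure (Algebra.adjoin K ({x} : Set F)) F) F :=
    integralClosure.isFractionRing_of_finite_extension K⟮x⟯ F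
  have hflat : Module.Flat (Algebra.adjoin K ({x} : Set F))
      (integralClosure (Algebra.adjoin K ({x} : Set F)) F) := inferInstance
  have hfaith : FaithfulSMul (Algebra.adjoin K ({x} : Set F))
      (integralClosure (Algebra.adjoin K ({x} : Set F)) F) :=
    (faithfulSMul_iff_algebraMap_injective _ _).mpr (fun a b h => by
      have := congrArg (algebraMap (integralClosure (Algebra.adjoin K ({x} : Set F)) F) F) h
      exact Subtype.ext this)
  let xR : Algebra.adjoin K ({x} : Set F) := ⟨x, Algebra.self_mem_adjoin_singleton K x⟩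
  let t : Algebra.adjoin K ({x} : Set F) := xR - algebraMap K _ c
  have ht_coe : algebraMap (integralClosure (Algebra.adjoin K ({x} : Set F)) F) F
      (algebraMap (Algebra.adjoin K ({x} : Set F)) _ t) = x - algebraMap K F c := rfl
  have htpoly : t = hw_polyEquiv hx (X - C c) := by
    apply Subtype.ext
    rw [hw_polyEquiv_coe]
    simp [t, xR]
  have hirr : Irreducible t := by
    rw [htpoly]
    exact (MulEquiv.irreducible_iff (hw_polyEquiv hx)).mpr (irreducible_X_sub_C c)
  have ht : t ≠ 0 := hirr.ne_zero
  have hmax : (Ideal.span {t}).IsMaximal := PrincipalIdealRing.isMaximal_of_irreducible hirr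
  have hK : Function.Surjective
      (algebraMap K (Algebra.adjoin K ({x} : Set F) ⧸ Ideal.span {t})) := by
    intro y
    obtain ⟨r, rfl⟩ := Ideal.Quotient.mk_surjective y
    obtain ⟨p, rfl⟩ := (hw_polyEquiv hx).surjective r
    refine ⟨p.eval c, ?_⟩
    rw [IsScalarTower.algebraMap_apply K (Algebra.adjoin K ({x} : Set F)), Ideal.Quotient.algebraMap_eq,
      eq_comm, Ideal.Quotient.mk_eq_mk_iff_sub_mem, Ideal.mem_span_singleton, htpoly]
    have h1 : p - C (p.eval c) = (X - C c) * (p /ₘ (X - C c)) := by
      have := modByMonic_add_div p (X - C c)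
      rw [modByMonic_X_sub_C_eq_C_eval] at this
      linear_combination (-1 : K[X]) * this
    refine ⟨hw_polyEquiv hx (p /ₘ (X - C c)), ?_⟩
    rw [← map_mul, ← h1, map_sub]
    congr 1
    exact ((hw_polyEquiv hx).commutes (p.eval c)).symm
  have hcontain : ∀ v : Place K F,
      0 < v.ord (algebraMap (integralClosure (Algebra.adjoin K ({x} : Set F)) F) F
        (algebraMap (Algebra.adjoin K ({x} : Set F)) _ t)) →
      ∀ b : integralClosure (Algebra.adjoin K ({x} : Set F)) F,
        algebraMap (integralClosure (Algebra.adjoin K ({x} : Set F)) F) F b ∈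
          v.toValuationSubring := by
    intro v hv b
    rw [ht_coe] at hv
    have hne : x - algebraMap K F c ≠ 0 := by
      intro h; rw [h] at hv; simp at hv
    have h1 : x - algebraMap K F c ∈ v.toValuationSubring :=
      (hw_mem_iff_ord_nonneg v hne).mpr hv.le
    have h2 : x ∈ v.toValuationSubring := by
      have := v.toValuationSubring.add_mem _ _ h1 (v.algebraMap_mem' c)
      simpa using this
    exact hw_coe_mem_of_mem_integralClosure x v h2 b
  obtain ⟨s, hs1, hs2⟩ := hw_sum_ord_eq_finrank
    (integralClosure (Algebra.adjoin K ({x} : Set F)) F) (Algebra.adjoin K ({x} : Set F))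
    t ht hK hcontain
  rw [ht_coe] at hs2
  simp only [ht_coe] at hs1
  refine ⟨s, hs1, ?_⟩
  rw [hs2, IsFractionRing.finrank_eq (Algebra.adjoin K ({x} : Set F)) K⟮x⟯
    (integralClosure (Algebra.adjoin K ({x} : Set F)) F) F]

end Concrete

/-! ### change of the separating variable -/

theorem pcf_adjoin_inv_eq (x : F) : K⟮x⁻¹⟯ = K⟮x⟯ := by
  apply le_antisymm
  · rw [adjoin_simple_le_iff]
    exact inv_mem (mem_adjoin_simple_self K x)
  · rw [adjoin_simple_le_iff]
    have := inv_mem (mem_adjoin_simple_self K x⁻¹)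
    rwa [inv_inv] at this

theorem pcf_adjoin_sub_const_eq (x : F) (c : K) : K⟮x - algebraMap K F c⟯ = K⟮x⟯ := by
  apply le_antisymm
  · rw [adjoin_simple_le_iff]
    exact sub_mem (mem_adjoin_simple_self K x) (IntermediateField.algebraMap_mem _ c)
  · rw [adjoin_simple_le_iff]
    have := add_mem (mem_adjoin_simple_self K (x - algebraMap K F c))
      (IntermediateField.algebraMap_mem K⟮x - algebraMap K F c⟯ c)
    rwa [sub_add_cancel] at this

/-- Transport of finiteness, separability and degree along an equality of intermediate fields. -/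
theorem pcf_transport_of_eq {E E' : IntermediateField K F} (h : E = E') [FiniteDimensional E F]
    [Algebra.IsSeparable E F] :
    FiniteDimensional E' F ∧ Algebra.IsSeparable E' F ∧
      Module.finrank E' F = Module.finrank E F := by
  subst h
  exact ⟨inferInstance, inferInstance, rfl⟩

theorem pcf_finiteDimensional_inv (x : F) [FiniteDimensional K⟮x⟯ F] :
    FiniteDimensional K⟮x⁻¹⟯ F := by
  rw [pcf_adjoin_inv_eq]; infer_instance

theorem pcf_isSeparable_inv (x : F) [Algebra.IsSeparable K⟮x⟯ F] :
    Algebra.IsSeparable K⟮x⁻¹⟯ F := by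
  rw [pcf_adjoin_inv_eq]; infer_instance

theorem pcf_finrank_inv (x : F) : Module.finrank K⟮x⁻¹⟯ F = Module.finrank K⟮x⟯ F := by
  rw [pcf_adjoin_inv_eq]

theorem pcf_finiteDimensional_sub_const (x : F) (c : K) [FiniteDimensional K⟮x⟯ F] :
    FiniteDimensional K⟮x - algebraMap K F c⟯ F := by
  rw [pcf_adjoin_sub_const_eq]; infer_instance

theorem pcf_isSeparable_sub_const (x : F) (c : K) [Algebra.IsSeparable K⟮x⟯ F] :
    Algebra.IsSeparable K⟮x - algebraMap K F c⟯ F := by
  rw [pcf_adjoin_sub_const_eq]; infer_instance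

theorem pcf_finrank_sub_const (x : F) (c : K) :
    Module.finrank K⟮x - algebraMap K F c⟯ F = Module.finrank K⟮x⟯ F := by
  rw [pcf_adjoin_sub_const_eq]

theorem pcf_transcendental_inv {x : F} (hx : Transcendental K x) : Transcendental K x⁻¹ :=
  fun h => hx (IsAlgebraic.inv_iff.mp h)

theorem pcf_transcendental_sub_const {x : F} (hx : Transcendental K x) (c : K) :
    Transcendental K (x - algebraMap K F c) := by
  intro h
  apply hx
  have := h.add (isAlgebraic_algebraMap (R := K) (A := F) c)
  rwa [sub_add_cancel] at this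

section Concrete'
variable [IsAlgClosed K]

/-- The same at infinity: the poles of `x` are finitely many and their orders add up to
`-[F : K(x)]`. -/
theorem pcf_sum_ord_poles {x : F} (hx : Transcendental K x) [FiniteDimensional K⟮x⟯ F]
    [Algebra.IsSeparable K⟮x⟯ F] :
    ∃ s : Finset (Place K F),
      (∀ v, v ∈ s ↔ v.ord x < 0) ∧
      ∑ v ∈ s, v.ord x = -(Module.finrank K⟮x⟯ F : ℤ) := by
  have hx' : Transcendental K x⁻¹ := pcf_transcendental_inv hx
  have hfd : FiniteDimensional K⟮x⁻¹⟯ F := pcf_finiteDimensional_inv x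
  have hsep : Algebra.IsSeparable K⟮x⁻¹⟯ F := pcf_isSeparable_inv x
  obtain ⟨s, hs1, hs2⟩ := pcf_sum_ord_sub_const hx' (0 : K)
  simp only [map_zero, sub_zero, Place.ord_inv] at hs1 hs2
  refine ⟨s, fun v => by rw [hs1 v]; omega, ?_⟩
  rw [Finset.sum_neg_distrib] at hs2
  rw [← pcf_finrank_inv (K := K) x]
  linarith

theorem pcf_finite_fiber {x : F} (hx : Transcendental K x) [FiniteDimensional K⟮x⟯ F]
    [Algebra.IsSeparable K⟮x⟯ F] (c : K) :
    {v : Place K F | 0 < v.ord (x - algebraMap K F c)}.Finite := by
  obtain ⟨s, hs, -⟩ := pcf_sum_ord_sub_const hx c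
  exact s.finite_toSet.subset fun v hv => (hs v).mpr hv

theorem pcf_finite_poles {x : F} (hx : Transcendental K x) [FiniteDimensional K⟮x⟯ F]
    [Algebra.IsSeparable K⟮x⟯ F] :
    {v : Place K F | v.ord x < 0}.Finite := by
  obtain ⟨s, hs, -⟩ := pcf_sum_ord_poles hx
  exact s.finite_toSet.subset fun v hv => (hs v).mpr hv

theorem pcf_sum_fiber_toFinset {x : F} (hx : Transcendental K x) [FiniteDimensional K⟮x⟯ F]
    [Algebra.IsSeparable K⟮x⟯ F] (c : K) :
    ∑ v ∈ (pcf_finite_fiber hx c).toFinset, v.ord (x - algebraMap K F c) =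
      (Module.finrank K⟮x⟯ F : ℤ) := by
  obtain ⟨s, hs, hsum⟩ := pcf_sum_ord_sub_const hx c
  have : (pcf_finite_fiber hx c).toFinset = s := by
    ext v; simp [hs]
  rw [this, hsum]

theorem pcf_sum_poles_toFinset {x : F} (hx : Transcendental K x) [FiniteDimensional K⟮x⟯ F]
    [Algebra.IsSeparable K⟮x⟯ F] :
    ∑ v ∈ (pcf_finite_poles hx).toFinset, v.ord x = -(Module.finrank K⟮x⟯ F : ℤ) := by
  obtain ⟨s, hs, hsum⟩ := pcf_sum_ord_poles hx
  have : (pcf_finite_poles hx).toFinset = s := by
    ext v; simp [hs]
  rw [this, hsum]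

/-- `x - c` has at least one zero. -/
theorem pcf_exists_zero {x : F} (hx : Transcendental K x) [FiniteDimensional K⟮x⟯ F]
    [Algebra.IsSeparable K⟮x⟯ F] (c : K) :
    ∃ v : Place K F, 0 < v.ord (x - algebraMap K F c) := by
  obtain ⟨s, hs, hsum⟩ := pcf_sum_ord_sub_const hx c
  have hpos : (0 : ℤ) < (Module.finrank K⟮x⟯ F : ℤ) := by exact_mod_cast Module.finrank_pos
  by_contra hne
  push Not at hne
  have : s = ∅ := by
    ext v
    simp only [hs, Finset.notMem_empty, iff_false, not_lt]
    exact hne v
  rw [this, Finset.sum_empty] at hsum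
  omega

/-- `x` has at least one pole. -/
theorem pcf_exists_pole {x : F} (hx : Transcendental K x) [FiniteDimensional K⟮x⟯ F]
    [Algebra.IsSeparable K⟮x⟯ F] :
    ∃ v : Place K F, v.ord x < 0 := by
  obtain ⟨s, hs, hsum⟩ := pcf_sum_ord_poles hx
  have hpos : (0 : ℤ) < (Module.finrank K⟮x⟯ F : ℤ) := by exact_mod_cast Module.finrank_pos
  by_contra hne
  push Not at hne
  have : s = ∅ := by
    ext v
    simp only [hs, Finset.notMem_empty, iff_false, not_lt]
    exact hne v
  rw [this, Finset.sum_empty] at hsum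
  omega

/-- Each finite fibre has at most `[F : K(x)]` places. -/
theorem pcf_ncard_fiber_le {x : F} (hx : Transcendental K x) [FiniteDimensional K⟮x⟯ F]
    [Algebra.IsSeparable K⟮x⟯ F] (c : K) :
    {v : Place K F | 0 < v.ord (x - algebraMap K F c)}.ncard ≤ Module.finrank K⟮x⟯ F := by
  classical
  have hsum := pcf_sum_fiber_toFinset hx c
  rw [Set.ncard_eq_toFinset_card _ (pcf_finite_fiber hx c)]
  have h1 : ((pcf_finite_fiber hx c).toFinset.card : ℤ) ≤
      ∑ v ∈ (pcf_finite_fiber hx c).toFinset, v.ord (x - algebraMap K F c) := by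
    rw [Finset.card_eq_sum_ones, Nat.cast_sum]
    refine Finset.sum_le_sum fun v hv => ?_
    have : 0 < v.ord (x - algebraMap K F c) := by simpa using hv
    have h2 : (1 : ℤ) ≤ v.ord (x - algebraMap K F c) := by omega
    simpa using h2
  rw [hsum] at h1
  exact_mod_cast h1

/-- The fibre at infinity has at most `[F : K(x)]` places. -/
theorem pcf_ncard_poles_le {x : F} (hx : Transcendental K x) [FiniteDimensional K⟮x⟯ F]
    [Algebra.IsSeparable K⟮x⟯ F] :
    {v : Place K F | v.ord x < 0}.ncard ≤ Module.finrank K⟮x⟯ F := by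
  classical
  have hsum := pcf_sum_poles_toFinset hx
  rw [Set.ncard_eq_toFinset_card _ (pcf_finite_poles hx)]
  have h1 : ((pcf_finite_poles hx).toFinset.card : ℤ) ≤
      ∑ v ∈ (pcf_finite_poles hx).toFinset, -v.ord x := by
    rw [Finset.card_eq_sum_ones, Nat.cast_sum]
    refine Finset.sum_le_sum fun v hv => ?_
    have : v.ord x < 0 := by simpa using hv
    have h2 : (1 : ℤ) ≤ -v.ord x := by omega
    simpa using h2
  rw [Finset.sum_neg_distrib, hsum, neg_neg] at h1
  exact_mod_cast h1

/-- If the fibre over `c` has `[F : K(x)]` places, it is unramified. -/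
theorem pcf_ord_eq_one_of_ncard {x : F} (hx : Transcendental K x) [FiniteDimensional K⟮x⟯ F]
    [Algebra.IsSeparable K⟮x⟯ F] (c : K)
    (hc : {v : Place K F | 0 < v.ord (x - algebraMap K F c)}.ncard = Module.finrank K⟮x⟯ F)
    (v : Place K F) (hv : 0 < v.ord (x - algebraMap K F c)) :
    v.ord (x - algebraMap K F c) = 1 := by
  classical
  have hsum := pcf_sum_fiber_toFinset hx c
  have hcard : ((pcf_finite_fiber hx c).toFinset.card : ℤ) = (Module.finrank K⟮x⟯ F : ℤ) := by
    rw [← hc, Set.ncard_eq_toFinset_card _ (pcf_finite_fiber hx c)]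
  have h0 : ∑ w ∈ (pcf_finite_fiber hx c).toFinset, (w.ord (x - algebraMap K F c) - 1) = 0 := by
    rw [Finset.sum_sub_distrib, hsum]
    simp [hcard]
  have hnn : ∀ w ∈ (pcf_finite_fiber hx c).toFinset, 0 ≤ w.ord (x - algebraMap K F c) - 1 := by
    intro w hw
    have : 0 < w.ord (x - algebraMap K F c) := by simpa using hw
    omega
  have := (Finset.sum_eq_zero_iff_of_nonneg hnn).mp h0 v (by simpa using hv)
  omega

/-- Every place lies over a point of the `x`-line: either `x` has a pole at `v`, or there is a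
`c` with `ord_v (x - c) > 0`. -/
theorem pcf_pole_or_exists_const {x : F} (hx : Transcendental K x) [Algebra.IsAlgebraic K⟮x⟯ F]
    (v : Place K F) :
    v.ord x < 0 ∨ ∃ c : K, 0 < v.ord (x - algebraMap K F c) := by
  by_cases hxv : x ∈ v.toValuationSubring
  · right
    obtain ⟨c, hc | hc⟩ := hw_exists_const x v hxv
    · exact absurd (hc ▸ isAlgebraic_algebraMap (R := K) (A := F) c) hx
    · exact ⟨c, hc⟩
  · left
    have hx0 : x ≠ 0 := by rintro rfl; exact hxv v.toValuationSubring.zero_mem
    by_contra h
    push Not at h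
    exact hxv ((hw_mem_iff_ord_nonneg v hx0).mpr h)

omit [IsAlgClosed K] in
/-- ... and the point is unique. -/
theorem pcf_const_unique {x : F} (v : Place K F) {c c' : K}
    (hc : 0 < v.ord (x - algebraMap K F c)) (hc' : 0 < v.ord (x - algebraMap K F c')) :
    c = c' := by
  by_contra hne
  have h1 : x - algebraMap K F c ≠ 0 := by intro h; rw [h] at hc; simp at hc
  have h2 : x - algebraMap K F c' ≠ 0 := by intro h; rw [h] at hc'; simp at hc'
  have hdiff : (x - algebraMap K F c) - (x - algebraMap K F c') = algebraMap K F (c' - c) := by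
    rw [map_sub]; ring
  have hne' : algebraMap K F (c' - c) ≠ 0 := by
    rw [Ne, map_eq_zero, sub_eq_zero]
    exact fun h => hne h.symm
  have hord : v.ord (algebraMap K F (c' - c)) = 0 := hw_ord_algebraMap v _
  have hneg : -(x - algebraMap K F c') ≠ 0 := neg_ne_zero.mpr h2
  have hsum : (x - algebraMap K F c) + -(x - algebraMap K F c') ≠ 0 := by
    rw [← sub_eq_add_neg, hdiff]; exact hne'
  have := hw_ord_add_ge v h1 hneg hsum
  rw [← sub_eq_add_neg, hdiff, hord, hw_ord_neg] at this
  omega

omit [IsAlgClosed K] in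
/-- A place at which `x` has a pole is not a zero of any `x - c`. -/
theorem pcf_not_pole_of_zero {x : F} (v : Place K F) {c : K}
    (hc : 0 < v.ord (x - algebraMap K F c)) : ¬ v.ord x < 0 := by
  intro hpole
  have h1 : x - algebraMap K F c ≠ 0 := by intro h; rw [h] at hc; simp at hc
  have hx0 : x ≠ 0 := by rintro rfl; simp at hpole
  have hmem : x - algebraMap K F c ∈ v.toValuationSubring :=
    (hw_mem_iff_ord_nonneg v h1).mpr hc.le
  have hxmem : x ∈ v.toValuationSubring := by
    have := v.toValuationSubring.add_mem _ _ hmem (v.algebraMap_mem' c)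
    simpa using this
  have := (hw_mem_iff_ord_nonneg v hx0).mp hxmem
  omega

end Concrete'

end Fermat.Agent.JT3
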